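import Mathlib
import Fermat.Agent.LT.T6.H8.Unimod

/-!
# Row LT, tower T7: ASSET `ArchGelfand` (helper444) -- core, Mathlib + helper8 `Unimod` only

OFF-MAIN.  The GELFAND PAIR `(GL₂(ℂ), U(2))`: convolution of bi-`U(2)`-invariant functions on
`GL₂(ℂ)` is COMMUTATIVE, for every Haar measure and ALL functions (no measurability, no
integrability: both sides are Bochner integrals, and the proof is a chain of measure preserving
substitutions).  This is what the clause `arch` of `H305.LocHyp305` / `H893.LocHyp893` (for ALL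
enumerations of the places over an infinite place) needs for PRODUCTS (`ProdMtCb`) and for the
construction (`BaseCb`); `ArchOk893` carries the bi-invariance for this purpose.

* `exists_polar444`      : polar decomposition `g = k p`, `k` unitary, `p` Hermitian.
* `biU_star444`          : a bi-`U(2)`-invariant function satisfies `Φ (star g) = Φ g`.
* `map_star_haar444`     : every Haar measure of `GL₂(ℂ)` is invariant under `g ↦ gᴴ`.
* `conv_biU444`          : the convolution of bi-invariant functions is bi-invariant.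
* `conv_comm_biU444`     : `∫ Φ₁ h * Φ₂ (h⁻¹ g) dμ = ∫ Φ₂ h * Φ₁ (h⁻¹ g) dμ`.
-/

set_option autoImplicit false
set_option linter.style.haveILetI false
set_option linter.unusedSectionVars false

open MeasureTheory MeasureTheory.Measure Matrix
open scoped NNReal ENNReal

noncomputable section

namespace Fermat.Agent.LT.T7.H444

/-- `Φ` is bi-invariant under `U(2)` (the shape of the clauses of `H893.ArchOk893`). -/
def IsBiU444 (Φ : GL (Fin 2) ℂ → ℂ) : Prop :=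
  ∀ k₁ k₂ g : GL (Fin 2) ℂ,
    (k₁ : Matrix (Fin 2) (Fin 2) ℂ) * (k₁ : Matrix (Fin 2) (Fin 2) ℂ).conjTranspose = 1 →
    (k₂ : Matrix (Fin 2) (Fin 2) ℂ) * (k₂ : Matrix (Fin 2) (Fin 2) ℂ).conjTranspose = 1 →
    Φ (k₁ * g * k₂) = Φ g

/-! ## 1. The polar decomposition -/

/-- A Hermitian square root of `gᴴ g`. -/
theorem exists_herm_sq444 (g : Matrix (Fin 2) (Fin 2) ℂ) :
    ∃ p : Matrix (Fin 2) (Fin 2) ℂ, p.conjTranspose = p ∧ p * p = g.conjTranspose * g := by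
  classical
  have hA : (g.conjTranspose * g).IsHermitian := isHermitian_conjTranspose_mul_self g
  set U : Matrix (Fin 2) (Fin 2) ℂ := (hA.eigenvectorUnitary : Matrix (Fin 2) (Fin 2) ℂ) with hU
  have hUU : star U * U = 1 := Unitary.coe_star_mul_self hA.eigenvectorUnitary
  have hspec : g.conjTranspose * g
      = U * diagonal (RCLike.ofReal ∘ hA.eigenvalues) * star U := by
    have h := hA.spectral_theorem
    rw [Unitary.conjStarAlgAut_apply] at h
    exact h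
  have hnn : ∀ i, 0 ≤ hA.eigenvalues i := fun i =>
    eigenvalues_conjTranspose_mul_self_nonneg g i
  set d : Fin 2 → ℂ := fun i => ((Real.sqrt (hA.eigenvalues i) : ℝ) : ℂ) with hd
  refine ⟨U * diagonal d * star U, ?_, ?_⟩
  · have hsd : star d = d := by
      funext i
      simp [hd]
    rw [conjTranspose_mul, conjTranspose_mul, ← star_eq_conjTranspose U,
      ← star_eq_conjTranspose (star U), star_star, diagonal_conjTranspose, hsd, mul_assoc]
  · have h1 : U * diagonal d * star U * (U * diagonal d * star U)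
        = U * (diagonal d * (star U * U) * diagonal d) * star U := by
      simp only [mul_assoc]
    have hdd : (fun i => d i * d i) = (RCLike.ofReal ∘ hA.eigenvalues : Fin 2 → ℂ) := by
      funext i
      show ((Real.sqrt (hA.eigenvalues i) : ℝ) : ℂ) * ((Real.sqrt (hA.eigenvalues i) : ℝ) : ℂ)
        = ((hA.eigenvalues i : ℝ) : ℂ)
      rw [← Complex.ofReal_mul, Real.mul_self_sqrt (hnn i)]
    rw [h1, hUU, mul_one, diagonal_mul_diagonal, hspec, hdd]

/-- **Polar decomposition** in `GL₂(ℂ)`: `g = k p`, `k` unitary, `p` Hermitian. -/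
theorem exists_polar444 (g : GL (Fin 2) ℂ) :
    ∃ k p : GL (Fin 2) ℂ,
      (k : Matrix (Fin 2) (Fin 2) ℂ) * (k : Matrix (Fin 2) (Fin 2) ℂ).conjTranspose = 1 ∧
      (k : Matrix (Fin 2) (Fin 2) ℂ).conjTranspose * (k : Matrix (Fin 2) (Fin 2) ℂ) = 1 ∧
      star p = p ∧ g = k * p := by
  obtain ⟨p, hp, hpp⟩ := exists_herm_sq444 (g : Matrix (Fin 2) (Fin 2) ℂ)
  have hgu : IsUnit ((g : Matrix (Fin 2) (Fin 2) ℂ).conjTranspose
      * (g : Matrix (Fin 2) (Fin 2) ℂ)) := by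
    have h1 : IsUnit (g : Matrix (Fin 2) (Fin 2) ℂ) := g.isUnit
    have h2 : IsUnit ((g : Matrix (Fin 2) (Fin 2) ℂ).conjTranspose) := by
      rw [← star_eq_conjTranspose]
      exact h1.star
    exact h2.mul h1
  have hpu : IsUnit p := by
    rw [← hpp] at hgu
    exact isUnit_of_mul_isUnit_left hgu
  obtain ⟨P, rfl⟩ := hpu
  have hPstar : star P = P := by
    apply Units.ext
    rw [Units.coe_star, star_eq_conjTranspose]
    exact hp
  have hkk : ((g * P⁻¹ : GL (Fin 2) ℂ) : Matrix (Fin 2) (Fin 2) ℂ).conjTranspose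
      * ((g * P⁻¹ : GL (Fin 2) ℂ) : Matrix (Fin 2) (Fin 2) ℂ) = 1 := by
    have h1 : star (g * P⁻¹) * (g * P⁻¹) = 1 := by
      have h2 : star g * g = P * P := by
        apply Units.ext
        rw [Units.val_mul, Units.val_mul, Units.coe_star, star_eq_conjTranspose]
        exact hpp.symm
      rw [star_mul, star_inv, hPstar, mul_assoc, ← mul_assoc (star g), h2]
      group
    have h3 := congrArg (fun u : GL (Fin 2) ℂ => (u : Matrix (Fin 2) (Fin 2) ℂ)) h1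
    simp only [Units.val_mul, Units.coe_star, Units.val_one] at h3
    rw [star_eq_conjTranspose] at h3
    exact h3
  refine ⟨g * P⁻¹, P, mul_eq_one_comm.mp hkk, hkk, hPstar, ?_⟩
  group

/-- A bi-`U(2)`-invariant function is invariant under `g ↦ gᴴ`. -/
theorem biU_star444 {Φ : GL (Fin 2) ℂ → ℂ} (hΦ : IsBiU444 Φ) (g : GL (Fin 2) ℂ) :
    Φ (star g) = Φ g := by
  obtain ⟨k, p, hk, hk', hp, rfl⟩ := exists_polar444 g
  have h1 : (1 : Matrix (Fin 2) (Fin 2) ℂ) * (1 : Matrix (Fin 2) (Fin 2) ℂ).conjTranspose = 1 := by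
    simp
  have hone : ((1 : GL (Fin 2) ℂ) : Matrix (Fin 2) (Fin 2) ℂ)
      * ((1 : GL (Fin 2) ℂ) : Matrix (Fin 2) (Fin 2) ℂ).conjTranspose = 1 := by
    rw [Units.val_one]; exact h1
  have hks : ((star k : GL (Fin 2) ℂ) : Matrix (Fin 2) (Fin 2) ℂ)
      * ((star k : GL (Fin 2) ℂ) : Matrix (Fin 2) (Fin 2) ℂ).conjTranspose = 1 := by
    rw [Units.coe_star, star_eq_conjTranspose, conjTranspose_conjTranspose]
    exact hk'
  have e1 : Φ (star (k * p)) = Φ p := by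
    rw [star_mul, hp]
    have := hΦ 1 (star k) p hone hks
    rwa [one_mul] at this
  have e2 : Φ (k * p) = Φ p := by
    have := hΦ k 1 p hk hone
    rwa [mul_one] at this
  rw [e1, e2]

/-! ## 2. Haar measures of `GL₂(ℂ)` and the anti-involution `g ↦ gᴴ` -/

/-- `g ↦ gᴴ` as a homeomorphism. -/
def starHomeo444 : GL (Fin 2) ℂ ≃ₜ GL (Fin 2) ℂ where
  toFun := star
  invFun := star
  left_inv := star_star
  right_inv := star_star
  continuous_toFun := continuous_star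
  continuous_invFun := continuous_star

/-- The automorphism `g ↦ (gᴴ)⁻¹`. -/
def starInv444 : GL (Fin 2) ℂ ≃* GL (Fin 2) ℂ where
  toFun g := (star g)⁻¹
  invFun g := (star g)⁻¹
  left_inv g := by
    show (star (star g)⁻¹)⁻¹ = g
    rw [star_inv, inv_inv, star_star]
  right_inv g := by
    show (star (star g)⁻¹)⁻¹ = g
    rw [star_inv, inv_inv, star_star]
  map_mul' g h := by
    show (star (g * h))⁻¹ = (star g)⁻¹ * (star h)⁻¹
    rw [star_mul, _root_.mul_inv_rev]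

theorem continuous_starInv444 : Continuous (starInv444 : GL (Fin 2) ℂ → GL (Fin 2) ℂ) :=
  continuous_star.inv

theorem continuous_starInv_symm444 :
    Continuous (starInv444.symm : GL (Fin 2) ℂ → GL (Fin 2) ℂ) :=
  continuous_star.inv

section Haar

variable [MeasurableSpace (GL (Fin 2) ℂ)] [BorelSpace (GL (Fin 2) ℂ)]
  (μ : Measure (GL (Fin 2) ℂ)) [IsHaarMeasure μ]

/-- Every Haar measure of `GL₂(ℂ)` is invariant under the automorphism `g ↦ (gᴴ)⁻¹`. -/
theorem map_starInv444 : map (starInv444 : GL (Fin 2) ℂ → GL (Fin 2) ℂ) μ = μ := by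
  haveI := Fermat.Agent.LT.T6.H8.locallyCompactSpace_GL2C8
  haveI := Fermat.Agent.LT.T6.H8.secondCountableTopology_GL2C8
  haveI : IsHaarMeasure (map (starInv444 : GL (Fin 2) ℂ → GL (Fin 2) ℂ) μ) :=
    starInv444.isHaarMeasure_map μ continuous_starInv444 continuous_starInv_symm444
  set ν := map (starInv444 : GL (Fin 2) ℂ → GL (Fin 2) ℂ) μ with hν
  let c : ℝ≥0∞ := haarScalarFactor ν μ
  have hc : ν = c • μ := isMulLeftInvariant_eq_smul ν μ
  have hinv : (starInv444 : GL (Fin 2) ℂ → GL (Fin 2) ℂ) ∘ (starInv444 : GL (Fin 2) ℂ → _)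
      = id := by
    funext g
    exact starInv444.left_inv g
  have h2 : map (starInv444 : GL (Fin 2) ℂ → GL (Fin 2) ℂ) ν = c ^ 2 • μ := by
    rw [hc, Measure.map_smul, ← hν, hc, smul_smul, pow_two]
  have μeq : μ = c ^ 2 • μ := by
    rw [hν, map_map continuous_starInv444.measurable continuous_starInv444.measurable, hinv,
      Measure.map_id] at h2
    exact h2
  have K : TopologicalSpace.PositiveCompacts (GL (Fin 2) ℂ) := Classical.arbitrary _
  have h3 : c ^ 2 * μ K = 1 ^ 2 * μ K := by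
    conv_rhs => rw [μeq]
    simp
  have h4 : c ^ 2 = 1 ^ 2 :=
    (ENNReal.mul_left_inj (measure_pos_of_nonempty_interior _ K.interior_nonempty).ne'
          K.isCompact.measure_lt_top.ne).1 h3
  have h5 : c = 1 := (ENNReal.pow_right_strictMono two_ne_zero).injective h4
  rw [hc, h5, one_smul]

/-- Every Haar measure of `GL₂(ℂ)` is invariant under inversion. -/
theorem map_inv_haar444 : map (fun x : GL (Fin 2) ℂ => x⁻¹) μ = μ :=
  (Fermat.Agent.LT.T6.H8.rightInv_GL2C8 μ).2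

/-- **Every Haar measure of `GL₂(ℂ)` is invariant under `g ↦ gᴴ`.** -/
theorem map_star_haar444 : map (star : GL (Fin 2) ℂ → GL (Fin 2) ℂ) μ = μ := by
  have h : (star : GL (Fin 2) ℂ → GL (Fin 2) ℂ)
      = (fun x : GL (Fin 2) ℂ => x⁻¹) ∘ (starInv444 : GL (Fin 2) ℂ → GL (Fin 2) ℂ) := by
    funext g
    show star g = ((star g)⁻¹)⁻¹
    rw [inv_inv]
  rw [h, ← map_map continuous_inv.measurable continuous_starInv444.measurable,
    map_starInv444, map_inv_haar444]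

/-- Substitution `h ↦ hᴴ`. -/
theorem integral_star444 (f : GL (Fin 2) ℂ → ℂ) : ∫ h, f (star h) ∂μ = ∫ h, f h ∂μ := by
  have hmp : MeasurePreserving (starHomeo444.toMeasurableEquiv) μ μ :=
    ⟨starHomeo444.toMeasurableEquiv.measurable, map_star_haar444 μ⟩
  exact hmp.integral_comp' f

/-- Substitution `h ↦ h⁻¹`. -/
theorem integral_inv444 (f : GL (Fin 2) ℂ → ℂ) : ∫ h, f h⁻¹ ∂μ = ∫ h, f h ∂μ := by
  have hmp : MeasurePreserving (MeasurableEquiv.inv (GL (Fin 2) ℂ)) μ μ :=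
    ⟨(MeasurableEquiv.inv (GL (Fin 2) ℂ)).measurable, map_inv_haar444 μ⟩
  exact hmp.integral_comp' f

/-! ## 3. The convolution of bi-invariant functions -/

/-- The convolution of bi-`U(2)`-invariant functions is bi-`U(2)`-invariant. -/
theorem conv_biU444 {Φ₁ Φ₂ : GL (Fin 2) ℂ → ℂ} (h₁ : IsBiU444 Φ₁) (h₂ : IsBiU444 Φ₂) :
    IsBiU444 (fun g => ∫ h, Φ₁ h * Φ₂ (h⁻¹ * g) ∂μ) := by
  intro k₁ k₂ g hk₁ hk₂
  have hone : ((1 : GL (Fin 2) ℂ) : Matrix (Fin 2) (Fin 2) ℂ)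
      * ((1 : GL (Fin 2) ℂ) : Matrix (Fin 2) (Fin 2) ℂ).conjTranspose = 1 := by
    rw [Units.val_one]; simp
  show ∫ h, Φ₁ h * Φ₂ (h⁻¹ * (k₁ * g * k₂)) ∂μ = ∫ h, Φ₁ h * Φ₂ (h⁻¹ * g) ∂μ
  have e1 : ∀ h : GL (Fin 2) ℂ, Φ₂ (h⁻¹ * (k₁ * g * k₂)) = Φ₂ (h⁻¹ * (k₁ * g)) := by
    intro h
    have := h₂ 1 k₂ (h⁻¹ * (k₁ * g)) hone hk₂
    rw [one_mul] at this
    rw [← this]
    congr 1
    group
  have e2 : ∀ h : GL (Fin 2) ℂ, Φ₁ (k₁ * h) = Φ₁ h := by
    intro h
    have := h₁ k₁ 1 h hk₁ hone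
    rwa [mul_one] at this
  calc ∫ h, Φ₁ h * Φ₂ (h⁻¹ * (k₁ * g * k₂)) ∂μ
      = ∫ h, Φ₁ h * Φ₂ (h⁻¹ * (k₁ * g)) ∂μ := by
        refine integral_congr_ae (Filter.Eventually.of_forall fun h => ?_)
        show Φ₁ h * Φ₂ (h⁻¹ * (k₁ * g * k₂)) = Φ₁ h * Φ₂ (h⁻¹ * (k₁ * g))
        rw [e1]
    _ = ∫ h, Φ₁ (k₁ * h) * Φ₂ ((k₁ * h)⁻¹ * (k₁ * g)) ∂μ :=
        (integral_mul_left_eq_self (fun h => Φ₁ h * Φ₂ (h⁻¹ * (k₁ * g))) k₁).symm
    _ = ∫ h, Φ₁ h * Φ₂ (h⁻¹ * g) ∂μ := by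
        refine integral_congr_ae (Filter.Eventually.of_forall fun h => ?_)
        show Φ₁ (k₁ * h) * Φ₂ ((k₁ * h)⁻¹ * (k₁ * g)) = Φ₁ h * Φ₂ (h⁻¹ * g)
        rw [e2]
        congr 2
        group

/-- **THE GELFAND PAIR `(GL₂(ℂ), U(2))`**: the convolution of bi-`U(2)`-invariant functions is
commutative (every Haar measure, ALL functions). -/
theorem conv_comm_biU444 {Φ₁ Φ₂ : GL (Fin 2) ℂ → ℂ} (h₁ : IsBiU444 Φ₁) (h₂ : IsBiU444 Φ₂)
    (g : GL (Fin 2) ℂ) :
    ∫ h, Φ₁ h * Φ₂ (h⁻¹ * g) ∂μ = ∫ h, Φ₂ h * Φ₁ (h⁻¹ * g) ∂μ := by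
  -- `(Φ₁ * Φ₂)(g) = (Φ₂ * Φ₁)(gᴴ)`
  have key : ∀ x : GL (Fin 2) ℂ,
      ∫ h, Φ₁ h * Φ₂ (h⁻¹ * x) ∂μ = ∫ h, Φ₂ h * Φ₁ (h⁻¹ * star x) ∂μ := by
    intro x
    calc ∫ h, Φ₁ h * Φ₂ (h⁻¹ * x) ∂μ
        = ∫ h, Φ₁ (star h) * Φ₂ (star x * (star h)⁻¹) ∂μ := by
          refine integral_congr_ae (Filter.Eventually.of_forall fun h => ?_)
          show Φ₁ h * Φ₂ (h⁻¹ * x) = Φ₁ (star h) * Φ₂ (star x * (star h)⁻¹)
          rw [biU_star444 h₁ h, ← biU_star444 h₂ (h⁻¹ * x), star_mul, star_inv]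
      _ = ∫ h, Φ₁ h * Φ₂ (star x * h⁻¹) ∂μ :=
          integral_star444 μ (fun h => Φ₁ h * Φ₂ (star x * h⁻¹))
      _ = ∫ h, Φ₁ (h⁻¹)⁻¹ * Φ₂ (star x * h⁻¹) ∂μ := by
          refine integral_congr_ae (Filter.Eventually.of_forall fun h => ?_)
          show Φ₁ h * Φ₂ (star x * h⁻¹) = Φ₁ (h⁻¹)⁻¹ * Φ₂ (star x * h⁻¹)
          rw [inv_inv]
      _ = ∫ h, Φ₁ h⁻¹ * Φ₂ (star x * h) ∂μ :=
          integral_inv444 μ (fun h => Φ₁ h⁻¹ * Φ₂ (star x * h))
      _ = ∫ h, Φ₁ ((star x)⁻¹ * h)⁻¹ * Φ₂ (star x * ((star x)⁻¹ * h)) ∂μ :=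
          (integral_mul_left_eq_self (fun h => Φ₁ h⁻¹ * Φ₂ (star x * h)) (star x)⁻¹).symm
      _ = ∫ h, Φ₂ h * Φ₁ (h⁻¹ * star x) ∂μ := by
          refine integral_congr_ae (Filter.Eventually.of_forall fun h => ?_)
          show Φ₁ ((star x)⁻¹ * h)⁻¹ * Φ₂ (star x * ((star x)⁻¹ * h)) = Φ₂ h * Φ₁ (h⁻¹ * star x)
          rw [mul_comm]
          congr 2
          · group
  rw [key g]
  exact biU_star444 (conv_biU444 μ h₂ h₁) g

end Haar

end Fermat.Agent.LT.T7.H444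

end
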