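import Mathlib
import Fermat.Agent.LT.T7.H305.MatchSpec
import Fermat.Agent.LT.T7.H444.ArchGelfandCore

/-!
# Row LT, tower T7: ASSET `ArchConv` (helper444) -- the convolution algebra at infinity

OFF-MAIN.  For the clause `arch` of `H305.LocHyp305` / `H893.LocHyp893` under PRODUCTS
(`ProdMtCb`) and in the construction (`BaseCb`).  Vocabulary: `T6.convInt` (`T6/Spec.lean`),
`H305.convL305`, `H305.conjGL305` (`T7/H305/MatchSpec.lean`), byte-identical copies.

## Generic (a locally compact second countable group `H`, a Haar measure `μ`)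

* `support_convInt444`, `hasCompactSupport_convInt444`, `continuous_convInt444`;
* `convInt_assoc444` : `(a * b) * c = a * (b * c)` (continuous, `a`, `b` of compact support);
* `map_invol_haar444` : a Haar measure is invariant under a continuous involutive
  automorphism; `convInt_invol444`: the convolution of invariant functions is invariant.

## `GL₂(ℂ)`

* `IsArchFn444 Φ` : continuous, compact support, invariant under complex conjugation,
  bi-`U(2)`-invariant (= the clauses of `ArchOk893` on one component);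
* `isArchFn_convInt444` : closed under convolution; `convInt_comm444` : commutative;
* `isArchFn_convL444`, `convL_mul444` : `convL305` of the products is the product of the
  `convL305`; `convL_perm444` : `convL305` does not depend on the enumeration.
-/

set_option autoImplicit false
set_option linter.style.haveILetI false
set_option linter.unusedSectionVars false

open MeasureTheory MeasureTheory.Measure
open scoped NNReal ENNReal Pointwise

noncomputable section

namespace Fermat.Agent.LT.T7.H444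

open Fermat.Agent.LT

/-! ## 1. Generic -/

section Generic

variable {H : Type} [Group H] [TopologicalSpace H] [IsTopologicalGroup H]
  [MeasurableSpace H] [BorelSpace H]

/-- The support of a convolution is contained in the product of the supports. -/
theorem support_convInt444 (μ : Measure H) (φ ψ : H → ℂ) :
    Function.support (T6.convInt μ φ ψ) ⊆ Function.support φ * Function.support ψ := by
  intro g hg
  by_contra hcon
  apply hg
  show ∫ h, φ h * ψ (h⁻¹ * g) ∂μ = 0
  have h0 : (fun y => φ y * ψ (y⁻¹ * g)) = fun _ => (0 : ℂ) := by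
    funext y
    by_cases h1 : φ y = 0
    · rw [h1, zero_mul]
    · by_cases h2 : ψ (y⁻¹ * g) = 0
      · rw [h2, mul_zero]
      · exact absurd ⟨y, h1, y⁻¹ * g, h2, by simp⟩ hcon
  rw [h0]
  simp

theorem hasCompactSupport_convInt444 (μ : Measure H) {φ ψ : H → ℂ}
    (h₁s : HasCompactSupport φ) (h₂s : HasCompactSupport ψ) :
    HasCompactSupport (T6.convInt μ φ ψ) := by
  have hK : IsCompact (tsupport φ * tsupport ψ) := h₁s.isCompact.mul h₂s.isCompact
  refine HasCompactSupport.intro hK ?_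
  intro g hg
  by_contra hne
  apply hg
  obtain ⟨y, hy, z, hz, hyz⟩ := support_convInt444 μ φ ψ hne
  exact ⟨y, subset_tsupport _ hy, z, subset_tsupport _ hz, hyz⟩

theorem continuous_convInt444 [LocallyCompactSpace H] (μ : Measure H) [IsHaarMeasure μ]
    {φ ψ : H → ℂ} (h₁c : Continuous φ) (h₁s : HasCompactSupport φ) (h₂c : Continuous ψ) :
    Continuous (T6.convInt μ φ ψ) := by
  rw [← continuousOn_univ]
  show ContinuousOn (fun g => ∫ h, φ h * ψ (h⁻¹ * g) ∂μ) Set.univ
  apply continuousOn_integral_of_compact_support (k := tsupport φ) h₁s.isCompact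
  · apply Continuous.continuousOn
    have c1 : Continuous fun p : H × H => φ p.2 := h₁c.comp continuous_snd
    have c2 : Continuous fun p : H × H => ψ (p.2⁻¹ * p.1) :=
      h₂c.comp ((continuous_inv.comp continuous_snd).mul continuous_fst)
    exact c1.mul c2
  · intro p y _ hy
    rw [image_eq_zero_of_notMem_tsupport hy]
    simp

/-- **Associativity** of the convolution (Fubini). -/
theorem convInt_assoc444 [LocallyCompactSpace H] [SecondCountableTopology H]
    (μ : Measure H) [IsHaarMeasure μ] {a b c : H → ℂ}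
    (hac : Continuous a) (has : HasCompactSupport a) (hbc : Continuous b)
    (hbs : HasCompactSupport b) (hcc : Continuous c) :
    T6.convInt μ (T6.convInt μ a b) c = T6.convInt μ a (T6.convInt μ b c) := by
  funext g
  show ∫ h, (∫ x, a x * b (x⁻¹ * h) ∂μ) * c (h⁻¹ * g) ∂μ
    = ∫ x, a x * (∫ y, b y * c (y⁻¹ * (x⁻¹ * g)) ∂μ) ∂μ
  -- the integrand on the product
  set F : H → H → ℂ := fun h x => a x * b (x⁻¹ * h) * c (h⁻¹ * g) with hF
  have hFc : Continuous (Function.uncurry F) := by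
    have c1 : Continuous fun p : H × H => a p.2 := hac.comp continuous_snd
    have c2 : Continuous fun p : H × H => b (p.2⁻¹ * p.1) :=
      hbc.comp ((continuous_inv.comp continuous_snd).mul continuous_fst)
    have c3 : Continuous fun p : H × H => c (p.1⁻¹ * g) :=
      hcc.comp ((continuous_inv.comp continuous_fst).mul continuous_const)
    exact (c1.mul c2).mul c3
  have hFs : HasCompactSupport (Function.uncurry F) := by
    have hK : IsCompact ((tsupport a * tsupport b) ×ˢ tsupport a) :=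
      (has.isCompact.mul hbs.isCompact).prod has.isCompact
    refine HasCompactSupport.intro hK ?_
    rintro ⟨h, x⟩ hp
    show a x * b (x⁻¹ * h) * c (h⁻¹ * g) = 0
    by_cases h1 : a x = 0
    · rw [h1, zero_mul, zero_mul]
    · by_cases h2 : b (x⁻¹ * h) = 0
      · rw [h2, mul_zero, zero_mul]
      · exfalso
        apply hp
        refine ⟨⟨x, subset_tsupport _ h1, x⁻¹ * h, subset_tsupport _ h2, by simp⟩,
          subset_tsupport _ h1⟩
  have hFi : Integrable (Function.uncurry F) (μ.prod μ) :=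
    hFc.integrable_of_hasCompactSupport hFs
  calc ∫ h, (∫ x, a x * b (x⁻¹ * h) ∂μ) * c (h⁻¹ * g) ∂μ
      = ∫ h, ∫ x, F h x ∂μ ∂μ := by
        refine integral_congr_ae (Filter.Eventually.of_forall fun h => ?_)
        show (∫ x, a x * b (x⁻¹ * h) ∂μ) * c (h⁻¹ * g) = ∫ x, a x * b (x⁻¹ * h) * c (h⁻¹ * g) ∂μ
        rw [integral_mul_const]
    _ = ∫ x, ∫ h, F h x ∂μ ∂μ := integral_integral_swap hFi
    _ = ∫ x, a x * (∫ y, b y * c (y⁻¹ * (x⁻¹ * g)) ∂μ) ∂μ := by
        refine integral_congr_ae (Filter.Eventually.of_forall fun x => ?_)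
        show ∫ h, a x * b (x⁻¹ * h) * c (h⁻¹ * g) ∂μ
          = a x * (∫ y, b y * c (y⁻¹ * (x⁻¹ * g)) ∂μ)
        rw [← integral_const_mul]
        have h1 := integral_mul_left_eq_self (μ := μ)
          (fun h => a x * b (x⁻¹ * h) * c (h⁻¹ * g)) x
        rw [← h1]
        refine integral_congr_ae (Filter.Eventually.of_forall fun y => ?_)
        show a x * b (x⁻¹ * (x * y)) * c ((x * y)⁻¹ * g) = a x * (b y * c (y⁻¹ * (x⁻¹ * g)))
        rw [inv_mul_cancel_left, _root_.mul_inv_rev, mul_assoc, mul_assoc]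

/-- A Haar measure is invariant under a continuous involutive automorphism. -/
theorem map_invol_haar444 [LocallyCompactSpace H] [SecondCountableTopology H]
    (μ : Measure H) [IsHaarMeasure μ] (e : H ≃* H) (he : Continuous e)
    (hinv : ∀ g : H, e (e g) = g) : map (e : H → H) μ = μ := by
  have hsymm : (e.symm : H → H) = e := by
    funext g
    apply e.injective
    rw [e.apply_symm_apply, hinv]
  have hes : Continuous (e.symm : H → H) := by rw [hsymm]; exact he
  haveI : IsHaarMeasure (map (e : H → H) μ) := e.isHaarMeasure_map μ he hes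
  set ν := map (e : H → H) μ with hν
  let c : ℝ≥0∞ := haarScalarFactor ν μ
  have hc : ν = c • μ := isMulLeftInvariant_eq_smul ν μ
  have hid : (e : H → H) ∘ (e : H → H) = id := by
    funext g
    exact hinv g
  have h2 : map (e : H → H) ν = c ^ 2 • μ := by
    rw [hc, Measure.map_smul, ← hν, hc, smul_smul, pow_two]
  have μeq : μ = c ^ 2 • μ := by
    rw [hν, map_map he.measurable he.measurable, hid, Measure.map_id] at h2
    exact h2
  have K : TopologicalSpace.PositiveCompacts H := Classical.arbitrary _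
  have h3 : c ^ 2 * μ K = 1 ^ 2 * μ K := by
    conv_rhs => rw [μeq]
    simp
  have h4 : c ^ 2 = 1 ^ 2 :=
    (ENNReal.mul_left_inj (measure_pos_of_nonempty_interior _ K.interior_nonempty).ne'
          K.isCompact.measure_lt_top.ne).1 h3
  have h5 : c = 1 := (ENNReal.pow_right_strictMono two_ne_zero).injective h4
  rw [hc, h5, one_smul]

/-- The convolution of functions which are invariant under a continuous involutive
automorphism is invariant. -/
theorem convInt_invol444 [LocallyCompactSpace H] [SecondCountableTopology H]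
    (μ : Measure H) [IsHaarMeasure μ] (e : H ≃* H) (he : Continuous e)
    (hinv : ∀ g : H, e (e g) = g) {φ ψ : H → ℂ} (hφ : ∀ g, φ (e g) = φ g)
    (hψ : ∀ g, ψ (e g) = ψ g) (g : H) :
    T6.convInt μ φ ψ (e g) = T6.convInt μ φ ψ g := by
  show ∫ h, φ h * ψ (h⁻¹ * e g) ∂μ = ∫ h, φ h * ψ (h⁻¹ * g) ∂μ
  have hsymm : (e.symm : H → H) = e := by
    funext g
    apply e.injective
    rw [e.apply_symm_apply, hinv]
  have hes : Continuous (e.symm : H → H) := by rw [hsymm]; exact he
  let E : H ≃ₜ H := ⟨e.toEquiv, he, hes⟩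
  have hmp : MeasurePreserving (E.toMeasurableEquiv) μ μ :=
    ⟨E.toMeasurableEquiv.measurable, map_invol_haar444 μ e he hinv⟩
  have h1 := hmp.integral_comp' (fun h => φ h * ψ (h⁻¹ * e g))
  rw [← h1]
  refine integral_congr_ae (Filter.Eventually.of_forall fun h => ?_)
  show φ (e h) * ψ ((e h)⁻¹ * e g) = φ h * ψ (h⁻¹ * g)
  rw [hφ, ← map_inv, ← map_mul, hψ]

end Generic

/-! ## 2. `GL₂(ℂ)` -/

section GL2C

open Fermat.Agent.LT.T7.H305

theorem conjGL_val444 (g : GL (Fin 2) ℂ) :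
    ((conjGL305 g : GL (Fin 2) ℂ) : Matrix (Fin 2) (Fin 2) ℂ)
      = (g : Matrix (Fin 2) (Fin 2) ℂ).map (starRingEnd ℂ) := rfl

theorem conjGL_conjGL444 (g : GL (Fin 2) ℂ) : conjGL305 (conjGL305 g) = g := by
  apply Units.ext
  rw [conjGL_val444, conjGL_val444]
  ext i j
  show (starRingEnd ℂ) ((starRingEnd ℂ) ((g : Matrix (Fin 2) (Fin 2) ℂ) i j)) = _
  exact Complex.conj_conj _

/-- Complex conjugation as an automorphism of `GL₂(ℂ)`. -/
def conjEquiv444 : GL (Fin 2) ℂ ≃* GL (Fin 2) ℂ where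
  toFun := conjGL305
  invFun := conjGL305
  left_inv := conjGL_conjGL444
  right_inv := conjGL_conjGL444
  map_mul' := map_mul conjGL305

theorem continuous_conjGL444 : Continuous (conjGL305 : GL (Fin 2) ℂ → GL (Fin 2) ℂ) := by
  rw [Units.continuous_iff]
  constructor
  · show Continuous fun g : GL (Fin 2) ℂ =>
      (g : Matrix (Fin 2) (Fin 2) ℂ).map (starRingEnd ℂ)
    exact (Units.continuous_val).matrix_map Complex.continuous_conj
  · show Continuous fun g : GL (Fin 2) ℂ =>
      ((g⁻¹ : GL (Fin 2) ℂ) : Matrix (Fin 2) (Fin 2) ℂ).map (starRingEnd ℂ)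
    exact (Units.continuous_val.comp continuous_inv).matrix_map Complex.continuous_conj

/-- **The archimedean test functions of the local shape**: continuous, compact support,
invariant under complex conjugation, bi-`U(2)`-invariant (the clauses of `H305.LocHyp305.arch_up`
and of `H893.ArchOk893` on one component). -/
def IsArchFn444 (Φ : GL (Fin 2) ℂ → ℂ) : Prop :=
  Continuous Φ ∧ HasCompactSupport Φ ∧ (∀ g : GL (Fin 2) ℂ, Φ (conjGL305 g) = Φ g) ∧
    IsBiU444 Φ

variable (μc : @Measure (GL (Fin 2) ℂ) (borel _))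
  (hμ : @Measure.IsHaarMeasure _ _ _ (borel _) μc)

include hμ

/-- The archimedean test functions are closed under convolution. -/
theorem isArchFn_convInt444 {Φ₁ Φ₂ : GL (Fin 2) ℂ → ℂ} (h₁ : IsArchFn444 Φ₁)
    (h₂ : IsArchFn444 Φ₂) : IsArchFn444 (@T6.convInt _ _ (borel _) μc Φ₁ Φ₂) := by
  letI : MeasurableSpace (GL (Fin 2) ℂ) := borel _
  haveI : BorelSpace (GL (Fin 2) ℂ) := ⟨rfl⟩
  haveI := hμ
  haveI := Fermat.Agent.LT.T6.H8.locallyCompactSpace_GL2C8
  haveI := Fermat.Agent.LT.T6.H8.secondCountableTopology_GL2C8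
  refine ⟨continuous_convInt444 μc h₁.1 h₁.2.1 h₂.1,
    hasCompactSupport_convInt444 μc h₁.2.1 h₂.2.1, ?_, conv_biU444 μc h₁.2.2.2 h₂.2.2.2⟩
  intro g
  exact convInt_invol444 μc conjEquiv444 continuous_conjGL444 conjGL_conjGL444
    h₁.2.2.1 h₂.2.2.1 g

/-- The convolution of archimedean test functions is commutative. -/
theorem convInt_comm444 {Φ₁ Φ₂ : GL (Fin 2) ℂ → ℂ} (h₁ : IsBiU444 Φ₁) (h₂ : IsBiU444 Φ₂) :
    @T6.convInt _ _ (borel _) μc Φ₁ Φ₂ = @T6.convInt _ _ (borel _) μc Φ₂ Φ₁ := by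
  letI : MeasurableSpace (GL (Fin 2) ℂ) := borel _
  haveI : BorelSpace (GL (Fin 2) ℂ) := ⟨rfl⟩
  haveI := hμ
  funext g
  exact conv_comm_biU444 μc h₁ h₂ g

/-- The convolution of archimedean test functions is associative. -/
theorem convInt_assocA444 {a b c : GL (Fin 2) ℂ → ℂ} (ha : IsArchFn444 a)
    (hb : IsArchFn444 b) (hc : IsArchFn444 c) :
    @T6.convInt _ _ (borel _) μc (@T6.convInt _ _ (borel _) μc a b) c
      = @T6.convInt _ _ (borel _) μc a (@T6.convInt _ _ (borel _) μc b c) := by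
  letI : MeasurableSpace (GL (Fin 2) ℂ) := borel _
  haveI : BorelSpace (GL (Fin 2) ℂ) := ⟨rfl⟩
  haveI := hμ
  haveI := Fermat.Agent.LT.T6.H8.locallyCompactSpace_GL2C8
  haveI := Fermat.Agent.LT.T6.H8.secondCountableTopology_GL2C8
  exact convInt_assoc444 μc ha.1 ha.2.1 hb.1 hb.2.1 hc.1

theorem convL_zero444 (Φ : ℕ → GL (Fin 2) ℂ → ℂ) : convL305 μc Φ 0 = Φ 0 := rfl

theorem convL_succ444 (Φ : ℕ → GL (Fin 2) ℂ → ℂ) (j : ℕ) :
    convL305 μc Φ (j + 1) = @T6.convInt _ _ (borel _) μc (convL305 μc Φ j) (Φ (j + 1)) := rfl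

/-- The iterated convolution of archimedean test functions is an archimedean test function. -/
theorem isArchFn_convL444 (Φ : ℕ → GL (Fin 2) ℂ → ℂ) (n : ℕ)
    (hΦ : ∀ j ≤ n, IsArchFn444 (Φ j)) : IsArchFn444 (convL305 μc Φ n) := by
  induction n with
  | zero => exact hΦ 0 le_rfl
  | succ n ih =>
    rw [convL_succ444 μc hμ]
    exact isArchFn_convInt444 μc hμ (ih fun j hj => hΦ j (Nat.le_succ_of_le hj))
      (hΦ (n + 1) le_rfl)

/-- **THE PRODUCT RULE**: the iterated convolution of the products is the product of the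
iterated convolutions. -/
theorem convL_mul444 (Φ₁ Φ₂ : ℕ → GL (Fin 2) ℂ → ℂ) (n : ℕ)
    (h₁ : ∀ j ≤ n, IsArchFn444 (Φ₁ j)) (h₂ : ∀ j ≤ n, IsArchFn444 (Φ₂ j)) :
    convL305 μc (fun j => @T6.convInt _ _ (borel _) μc (Φ₁ j) (Φ₂ j)) n
      = @T6.convInt _ _ (borel _) μc (convL305 μc Φ₁ n) (convL305 μc Φ₂ n) := by
  induction n with
  | zero => rfl
  | succ n ih =>
    have hA := isArchFn_convL444 μc hμ Φ₁ n fun j hj => h₁ j (Nat.le_succ_of_le hj)
    have hB := isArchFn_convL444 μc hμ Φ₂ n fun j hj => h₂ j (Nat.le_succ_of_le hj)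
    have ha := h₁ (n + 1) le_rfl
    have hb := h₂ (n + 1) le_rfl
    rw [convL_succ444 μc hμ, convL_succ444 μc hμ, convL_succ444 μc hμ,
      ih (fun j hj => h₁ j (Nat.le_succ_of_le hj)) (fun j hj => h₂ j (Nat.le_succ_of_le hj))]
    -- `(A * B) * (a * b) = (A * a) * (B * b)`
    rw [convInt_assocA444 μc hμ hA hB (isArchFn_convInt444 μc hμ ha hb),
      ← convInt_assocA444 μc hμ hB ha hb,
      convInt_comm444 μc hμ hB.2.2.2 ha.2.2.2,
      convInt_assocA444 μc hμ ha hB hb,
      ← convInt_assocA444 μc hμ hA ha (isArchFn_convInt444 μc hμ hB hb)]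

/-! ## 3. The iterated convolution does not depend on the enumeration -/

/-- The archimedean test functions. -/
def ArchAlg444 : Type := {Φ : GL (Fin 2) ℂ → ℂ // IsArchFn444 Φ}

/-- The convolution on `ArchAlg444`. -/
def archMul444 (a b : ArchAlg444) : ArchAlg444 :=
  ⟨@T6.convInt _ _ (borel _) μc a.1 b.1, isArchFn_convInt444 μc hμ a.2 b.2⟩

/-- `ArchAlg444` is a commutative semigroup under convolution. -/
@[reducible] def archSemigroup444 : CommSemigroup ArchAlg444 where
  mul := archMul444 μc hμ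
  mul_assoc a b c := Subtype.ext (convInt_assocA444 μc hμ a.2 b.2 c.2)
  mul_comm a b := Subtype.ext (convInt_comm444 μc hμ a.2.2.2.2 b.2.2.2.2)

/-- The iterated convolution is the product in `WithOne ArchAlg444`. -/
theorem convL_eq_prod444 (Ψ : ℕ → ArchAlg444) (n : ℕ) :
    letI := archSemigroup444 μc hμ
    ∃ P : ArchAlg444, P.1 = convL305 μc (fun j => (Ψ j).1) n ∧
      (P : WithOne ArchAlg444) = ∏ j ∈ Finset.range (n + 1), ((Ψ j : ArchAlg444) : WithOne _) := by
  letI := archSemigroup444 μc hμ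
  induction n with
  | zero =>
    refine ⟨Ψ 0, rfl, ?_⟩
    rw [Finset.prod_range_one]
  | succ n ih =>
    obtain ⟨P, hP1, hP2⟩ := ih
    refine ⟨P * Ψ (n + 1), ?_, ?_⟩
    · show @T6.convInt _ _ (borel _) μc P.1 (Ψ (n + 1)).1 = _
      rw [hP1]
      rfl
    · rw [Finset.prod_range_succ, ← hP2, WithOne.coe_mul]

/-- **PERMUTATION INVARIANCE**: two enumerations `w`, `w'` of the same `n + 1` indices give
the same iterated convolution. -/
theorem convL_perm444 {ι : Type} (Φ : ι → GL (Fin 2) ℂ → ℂ) (hΦ : ∀ i, IsArchFn444 (Φ i))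
    (n : ℕ) (w w' : ℕ → ι)
    (hw : ∀ j j' : ℕ, j ≤ n → j' ≤ n → w j = w j' → j = j')
    (hw' : ∀ j j' : ℕ, j ≤ n → j' ≤ n → w' j = w' j' → j = j')
    (himg : ∀ i : ι, (∃ j ≤ n, w j = i) ↔ ∃ j ≤ n, w' j = i) :
    convL305 μc (fun j => Φ (w j)) n = convL305 μc (fun j => Φ (w' j)) n := by
  classical
  letI := archSemigroup444 μc hμ
  let Ψ : ι → ArchAlg444 := fun i => ⟨Φ i, hΦ i⟩
  obtain ⟨P, hP1, hP2⟩ := convL_eq_prod444 μc hμ (fun j => Ψ (w j)) n
  obtain ⟨P', hP'1, hP'2⟩ := convL_eq_prod444 μc hμ (fun j => Ψ (w' j)) n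
  have himg' : (Finset.range (n + 1)).image w = (Finset.range (n + 1)).image w' := by
    ext i
    simp only [Finset.mem_image, Finset.mem_range, Nat.lt_succ_iff]
    exact himg i
  have e1 : ∏ j ∈ Finset.range (n + 1), ((Ψ (w j) : ArchAlg444) : WithOne ArchAlg444)
      = ∏ i ∈ (Finset.range (n + 1)).image w, ((Ψ i : ArchAlg444) : WithOne ArchAlg444) := by
    rw [Finset.prod_image]
    intro j hj j' hj' h
    exact hw j j' (Nat.lt_succ_iff.mp (Finset.mem_range.mp hj))
      (Nat.lt_succ_iff.mp (Finset.mem_range.mp hj')) h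
  have e2 : ∏ j ∈ Finset.range (n + 1), ((Ψ (w' j) : ArchAlg444) : WithOne ArchAlg444)
      = ∏ i ∈ (Finset.range (n + 1)).image w', ((Ψ i : ArchAlg444) : WithOne ArchAlg444) := by
    rw [Finset.prod_image]
    intro j hj j' hj' h
    exact hw' j j' (Nat.lt_succ_iff.mp (Finset.mem_range.mp hj))
      (Nat.lt_succ_iff.mp (Finset.mem_range.mp hj')) h
  have hPP : (P : WithOne ArchAlg444) = (P' : WithOne ArchAlg444) := by
    rw [hP2, hP'2, e1, e2, himg']
  have hPP' : P = P' := WithOne.coe_inj.mp hPP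
  rw [← hP1, ← hP'1, hPP']

/-- Permutation invariance, for enumerations of a finite set with `n + 1` elements. -/
theorem convL_perm_finset444 {ι : Type} (Φ : ι → GL (Fin 2) ℂ → ℂ)
    (hΦ : ∀ i, IsArchFn444 (Φ i)) (n : ℕ) (S : Finset ι) (hS : S.card = n + 1) (w w' : ℕ → ι)
    (hwS : ∀ j ≤ n, w j ∈ S) (hw'S : ∀ j ≤ n, w' j ∈ S)
    (hw : ∀ j j' : ℕ, j ≤ n → j' ≤ n → w j = w j' → j = j')
    (hw' : ∀ j j' : ℕ, j ≤ n → j' ≤ n → w' j = w' j' → j = j') :
    convL305 μc (fun j => Φ (w j)) n = convL305 μc (fun j => Φ (w' j)) n := by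
  classical
  have key : ∀ u : ℕ → ι, (∀ j ≤ n, u j ∈ S) →
      (∀ j j' : ℕ, j ≤ n → j' ≤ n → u j = u j' → j = j') →
      (Finset.range (n + 1)).image u = S := by
    intro u huS hu
    apply Finset.eq_of_subset_of_card_le
    · intro i hi
      obtain ⟨j, hj, rfl⟩ := Finset.mem_image.mp hi
      exact huS j (Nat.lt_succ_iff.mp (Finset.mem_range.mp hj))
    · rw [Finset.card_image_of_injOn, Finset.card_range, hS]
      intro j hj j' hj' h
      exact hu j j' (Nat.lt_succ_iff.mp (Finset.mem_range.mp hj))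
        (Nat.lt_succ_iff.mp (Finset.mem_range.mp hj')) h
  refine convL_perm444 μc hμ Φ hΦ n w w' hw hw' fun i => ?_
  have h1 := key w hwS hw
  have h2 := key w' hw'S hw'
  have e : ∀ u : ℕ → ι, (∃ j ≤ n, u j = i) ↔ i ∈ (Finset.range (n + 1)).image u := by
    intro u
    simp only [Finset.mem_image, Finset.mem_range, Nat.lt_succ_iff]
  rw [e w, e w', h1, h2]

/-! ## 4. Scalars, and the clause `arch` for products -/

omit hμ in
theorem convInt_smul_left444 (c : ℂ) (Φ₁ Φ₂ : GL (Fin 2) ℂ → ℂ) :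
    @T6.convInt _ _ (borel _) μc (fun g => c * Φ₁ g) Φ₂
      = fun g => c * @T6.convInt _ _ (borel _) μc Φ₁ Φ₂ g := by
  letI : MeasurableSpace (GL (Fin 2) ℂ) := borel _
  funext g
  show ∫ h, c * Φ₁ h * Φ₂ (h⁻¹ * g) ∂μc = c * ∫ h, Φ₁ h * Φ₂ (h⁻¹ * g) ∂μc
  rw [← integral_const_mul]
  refine integral_congr_ae (Filter.Eventually.of_forall fun h => ?_)
  show c * Φ₁ h * Φ₂ (h⁻¹ * g) = c * (Φ₁ h * Φ₂ (h⁻¹ * g))
  rw [mul_assoc]

omit hμ in
theorem convInt_smul_right444 (c : ℂ) (Φ₁ Φ₂ : GL (Fin 2) ℂ → ℂ) :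
    @T6.convInt _ _ (borel _) μc Φ₁ (fun g => c * Φ₂ g)
      = fun g => c * @T6.convInt _ _ (borel _) μc Φ₁ Φ₂ g := by
  letI : MeasurableSpace (GL (Fin 2) ℂ) := borel _
  funext g
  show ∫ h, Φ₁ h * (c * Φ₂ (h⁻¹ * g)) ∂μc = c * ∫ h, Φ₁ h * Φ₂ (h⁻¹ * g) ∂μc
  rw [← integral_const_mul]
  refine integral_congr_ae (Filter.Eventually.of_forall fun h => ?_)
  show Φ₁ h * (c * Φ₂ (h⁻¹ * g)) = c * (Φ₁ h * Φ₂ (h⁻¹ * g))
  rw [mul_left_comm]

omit hμ in
theorem isArchFn_smul444 (c : ℂ) {Φ : GL (Fin 2) ℂ → ℂ} (h : IsArchFn444 Φ) :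
    IsArchFn444 (fun g => c * Φ g) := by
  refine ⟨continuous_const.mul h.1, ?_, fun g => ?_, fun k₁ k₂ g hk₁ hk₂ => ?_⟩
  · exact h.2.1.mul_left
  · show c * Φ (conjGL305 g) = c * Φ g
    rw [h.2.2.1]
  · show c * Φ (k₁ * g * k₂) = c * Φ g
    rw [h.2.2.2 k₁ k₂ g hk₁ hk₂]

/-- **THE CLAUSE `arch` FOR PRODUCTS** (shape of `H305.LocHyp305.arch` / `H893.LocHyp893.arch`
for one infinite place `v` and one enumeration `w`): if `F₁ = convL305 (Φ₁ ∘ w)` and
`F₂ = convL305 (Φ₂ ∘ w)`, then `F₁ * F₂ = convL305 ((Φ₁ * Φ₂) ∘ w)`. -/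
theorem arch_mul444 {ι : Type} (Φ₁ Φ₂ : ι → GL (Fin 2) ℂ → ℂ)
    (h₁ : ∀ i, IsArchFn444 (Φ₁ i)) (h₂ : ∀ i, IsArchFn444 (Φ₂ i))
    (F₁ F₂ : GL (Fin 2) ℂ → ℂ) (w : ℕ → ι) (n : ℕ)
    (e₁ : F₁ = convL305 μc (fun j => Φ₁ (w j)) n)
    (e₂ : F₂ = convL305 μc (fun j => Φ₂ (w j)) n) :
    @T6.convInt _ _ (borel _) μc F₁ F₂
      = convL305 μc (fun j => @T6.convInt _ _ (borel _) μc (Φ₁ (w j)) (Φ₂ (w j))) n := by
  rw [e₁, e₂]
  exact (convL_mul444 μc hμ (fun j => Φ₁ (w j)) (fun j => Φ₂ (w j)) n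
    (fun j _ => h₁ (w j)) (fun j _ => h₂ (w j))).symm

end GL2C

end Fermat.Agent.LT.T7.H444

end
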